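import Fermat.Agent.Lib.Kummer.CaseII
import Fermat.Agent.Lib.Kummer.SophieGermain
import Fermat.Agent.Lib.Kummer.PID7
import Fermat.Agent.Lib.Kummer.PID13
import Fermat.Agent.Lib.Kummer.Units5
import Fermat.Agent.Lib.Kummer.Units7
import Fermat.Agent.Lib.Kummer.Units13
import Fermat.Prelude.Def_FLTPrelim_FreyPackage

set_option autoImplicit false

namespace Fermat.Agent.S10

open NumberField Fermat.Agent.Lib.Kummer

/-- Fermat for exponent `5`, coprime nonzero integers. -/
theorem fermat_five (a b c : ℤ) (ha : a ≠ 0) (hb : b ≠ 0) (hc : c ≠ 0) (hab : IsCoprime a b) :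
    a ^ 5 + b ^ 5 ≠ c ^ 5 := by
  have : Fact (Nat.Prime 5) := ⟨by norm_num⟩
  have : IsCyclotomicExtension {5} ℚ (CyclotomicField 5 ℚ) :=
    CyclotomicField.isCyclotomicExtension 5 ℚ
  have : NumberField (CyclotomicField 5 ℚ) := IsCyclotomicExtension.numberField {5} ℚ _
  have : IsPrincipalIdealRing (𝓞 (CyclotomicField 5 ℚ)) :=
    IsCyclotomicExtension.Rat.five_pid (CyclotomicField 5 ℚ)
  exact fermat_of_caseI (p := 5) (K := CyclotomicField 5 ℚ) (by norm_num)
    (Units5.kummerLemmaHolds (CyclotomicField 5 ℚ))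
    (fun a b c hab hdiv H => hdiv (caseI_five H hab)) a b c ha hb hc hab

/-- Fermat for exponent `7`, coprime nonzero integers. -/
theorem fermat_seven (a b c : ℤ) (ha : a ≠ 0) (hb : b ≠ 0) (hc : c ≠ 0) (hab : IsCoprime a b) :
    a ^ 7 + b ^ 7 ≠ c ^ 7 := by
  have : Fact (Nat.Prime 7) := ⟨by norm_num⟩
  have : IsCyclotomicExtension {7} ℚ (CyclotomicField 7 ℚ) :=
    CyclotomicField.isCyclotomicExtension 7 ℚ
  have : NumberField (CyclotomicField 7 ℚ) := IsCyclotomicExtension.numberField {7} ℚ _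
  have : IsPrincipalIdealRing (𝓞 (CyclotomicField 7 ℚ)) := pid_seven (CyclotomicField 7 ℚ)
  exact fermat_of_caseI (p := 7) (K := CyclotomicField 7 ℚ) (by norm_num)
    (Units7.kummerLemmaHolds (CyclotomicField 7 ℚ))
    (fun a b c hab hdiv H => hdiv (caseI_seven H hab)) a b c ha hb hc hab

/-- Fermat for exponent `13`, coprime nonzero integers. -/
theorem fermat_thirteen (a b c : ℤ) (ha : a ≠ 0) (hb : b ≠ 0) (hc : c ≠ 0)
    (hab : IsCoprime a b) : a ^ 13 + b ^ 13 ≠ c ^ 13 := by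
  have : Fact (Nat.Prime 13) := ⟨by norm_num⟩
  have : IsCyclotomicExtension {13} ℚ (CyclotomicField 13 ℚ) :=
    CyclotomicField.isCyclotomicExtension 13 ℚ
  have : NumberField (CyclotomicField 13 ℚ) := IsCyclotomicExtension.numberField {13} ℚ _
  have : IsPrincipalIdealRing (𝓞 (CyclotomicField 13 ℚ)) := pid_thirteen (CyclotomicField 13 ℚ)
  exact fermat_of_caseI (p := 13) (K := CyclotomicField 13 ℚ) (by norm_num)
    (Units13.kummerLemmaHolds (CyclotomicField 13 ℚ))
    (fun a b c hab hdiv H => hdiv (caseI_thirteen H hab)) a b c ha hb hc hab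

theorem isCoprime_freyPackage (P : FreyPackage) : IsCoprime P.a P.b := by
  rw [Int.isCoprime_iff_gcd_eq_one]
  have h2 : ((Int.gcd P.a P.b : ℕ) : ℤ) = 1 := P.hgcdab
  exact_mod_cast h2

/-- No Frey package has exponent `5`, `7` or `13`. -/
theorem no_freyPackage_small (P : FreyPackage) (hp : P.p = 5 ∨ P.p = 7 ∨ P.p = 13) : False := by
  have hab := isCoprime_freyPackage P
  have H := P.hFLT
  rcases hp with h | h | h
  · rw [h] at H
    exact fermat_five P.a P.b P.c P.ha0 P.hb0 P.hc0 hab H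
  · rw [h] at H
    exact fermat_seven P.a P.b P.c P.ha0 P.hb0 P.hc0 hab H
  · rw [h] at H
    exact fermat_thirteen P.a P.b P.c P.ha0 P.hb0 P.hc0 hab H

end Fermat.Agent.S10
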